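import Fermat.Agent.S48.MS.Local

/-!
# S48-MS, file `LocalLog`: the local inequality `|a|² x - 2 |a|² x² - 2 x² ≤ log D(x)`
-/

set_option autoImplicit false

open ComplexConjugate

namespace Fermat.Agent.S48.MS

/-- `D ≥ 1` (first term). -/
theorem one_le_tsum (u : ℕ → ℂ) (h0 : u 0 = 1) (x : ℝ) (hx0 : 0 ≤ x)
    (hs : Summable fun k => ‖u k‖ ^ 2 * x ^ k) : 1 ≤ ∑' k, ‖u k‖ ^ 2 * x ^ k := by
  have h := hs.le_tsum 0 (fun k _ => by positivity)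
  simpa [h0] using h

/-- `D P = 1 - x²`, `D ≥ 1`, `1 - x² > 0`, so `P > 0` and `log D = log (1 - x²) - log P`;
`- log P ≥ 1 - P` (`Real.log_le_sub_one_of_pos`), `1 - P = t x - (r - 2) x² + t x³ - x⁴ ≥ t x - 2 t x²`
(`re_le`), `log (1 - x²) ≥ 1 - 1/(1 - x²) ≥ - 2 x²` (`Real.one_sub_inv_le_log_of_pos`, `x² ≤ 1/4`). -/
theorem local_log_le (a e : ℂ) (he : ‖e‖ = 1) (u : ℕ → ℂ) (h0 : u 0 = 1) (h1 : u 1 = a)
    (hu : ∀ k, u (k + 2) = a * u (k + 1) - e * u k) (x : ℝ) (hx0 : 0 < x) (hx : x ≤ 1 / 2)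
    (hs : Summable fun k => ‖u k‖ ^ 2 * x ^ k) :
    ‖a‖ ^ 2 * x - 2 * ‖a‖ ^ 2 * x ^ 2 - 2 * x ^ 2 ≤ Real.log (∑' k, ‖u k‖ ^ 2 * x ^ k) := by
  set D := ∑' k, ‖u k‖ ^ 2 * x ^ k with hD
  set t := ‖a‖ ^ 2 with ht
  set r := 2 * (a ^ 2 * conj e).re with hr
  set P := 1 - t * x + (r - 2) * x ^ 2 - t * x ^ 3 + x ^ 4 with hP
  have hDP : D * P = 1 - x ^ 2 := tsum_mul_poly a e he u h0 h1 hu x hs
  have hD1 : 1 ≤ D := one_le_tsum u h0 x hx0.le hs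
  have hD0 : 0 < D := by linarith
  have ht0 : 0 ≤ t := by positivity
  have hrt : r ≤ 2 * t := re_le a e he
  have hx2 : x ^ 2 ≤ 1 / 4 := by nlinarith
  have hx2' : 0 < x ^ 2 := by positivity
  have hQ : 0 < 1 - x ^ 2 := by linarith
  have hP0 : 0 < P := by
    by_contra hcon
    have : D * P ≤ 0 := mul_nonpos_of_nonneg_of_nonpos hD0.le (not_lt.1 hcon)
    linarith
  have hlog : Real.log D = Real.log (1 - x ^ 2) - Real.log P := by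
    rw [← hDP, Real.log_mul hD0.ne' hP0.ne']
    ring
  have h2 : Real.log P ≤ P - 1 := Real.log_le_sub_one_of_pos hP0
  have h3 : 1 - (1 - x ^ 2)⁻¹ ≤ Real.log (1 - x ^ 2) := Real.one_sub_inv_le_log_of_pos hQ
  have h4 : -(2 * x ^ 2) ≤ 1 - (1 - x ^ 2)⁻¹ := by
    have : (1 - x ^ 2)⁻¹ ≤ 1 + 2 * x ^ 2 := by
      rw [inv_le_comm₀ hQ (by positivity), inv_eq_one_div, div_le_iff₀ (by positivity)]
      nlinarith
    linarith
  have h5 : t * x - 2 * t * x ^ 2 ≤ 1 - P := by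
    have e1 : 1 - P = t * x - (r - 2) * x ^ 2 + t * x ^ 3 - x ^ 4 := by rw [hP]; ring
    rw [e1]
    have e2 : 0 ≤ t * x ^ 3 := by positivity
    have e3 : x ^ 4 ≤ x ^ 2 := by nlinarith
    have e4 : (r - 2) * x ^ 2 ≤ (2 * t - 2) * x ^ 2 :=
      mul_le_mul_of_nonneg_right (by linarith) hx2'.le
    nlinarith
  rw [hlog]
  linarith

end Fermat.Agent.S48.MS
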