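import Fermat.Agent.S48.MS.Err
import Fermat.Agent.S48.MS.LocalLog

/-!
# S48-MS, file `Main`: Rankin's estimate from the analytic bound
-/

set_option autoImplicit false

open CongruenceSubgroup ModularFormClass

namespace Fermat.Agent.S48.MS

/-- The export of the analytic half (helper90: `an_bound`). -/
def AnStatement : Prop :=
  ∀ (N : ℕ) [NeZero N] (f : CuspForm (Gamma1 N) 1), ∃ C : ℝ, ∀ s : ℝ, 1 < s → s ≤ 2 →
    ∀ F : Finset ℕ, (∀ n ∈ F, n ≠ 0) →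
      ∑ n ∈ F, ‖qCoeff f n‖ ^ 2 * (n : ℝ) ^ (-s) ≤ C / (s - 1)

variable {N : ℕ} [NeZero N] {ε : DirichletCharacter ℂ N} {f : CuspForm (Gamma1 N) 1}

/-- the local inequality for the modular form. -/
theorem local_le (h : Hyp N ε f) {s B : ℝ} (hs : 1 ≤ s) (hB : AnAt f s B) {p : ℕ} (hp : p.Prime)
    (hpN : ¬ p ∣ N) :
    ‖qCoeff f p‖ ^ 2 * (p : ℝ) ^ (-s) - 2 * (‖qCoeff f p‖ ^ 2 * ((p : ℝ) ^ (-s)) ^ 2)
        - 2 * ((p : ℝ) ^ (-s)) ^ 2
      ≤ Real.log (∑' k, ‖qCoeff f (p ^ k)‖ ^ 2 * ((p : ℝ) ^ (-s)) ^ k) := by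
  have hx0 : 0 < (p : ℝ) ^ (-s) := Real.rpow_pos_of_pos (by exact_mod_cast hp.pos) _
  have key := local_log_le (qCoeff f p) (ε (p : ZMod N)) (norm_eps ε hp hpN)
    (fun k => qCoeff f (p ^ k)) (by simpa using h.one) (by simp)
    (fun k => qCoeff_pow_succ_succ h hp hpN k) ((p : ℝ) ^ (-s)) hx0
    (rpow_neg_le_half hp.two_le hs) (summable_local h hB hp hpN)
  refine le_trans (le_of_eq ?_) key
  ring

/-- sum of the logarithms. -/
theorem sum_log_le (h : Hyp N ε f) {s B : ℝ} (hB : AnAt f s B) (F : Finset ℕ)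
    (hF : ∀ p ∈ F, p.Prime ∧ ¬ p ∣ N) :
    ∑ p ∈ F, Real.log (∑' k, ‖qCoeff f (p ^ k)‖ ^ 2 * ((p : ℝ) ^ (-s)) ^ k) ≤ Real.log B := by
  have h1 : ∀ p ∈ F, 1 ≤ ∑' k, ‖qCoeff f (p ^ k)‖ ^ 2 * ((p : ℝ) ^ (-s)) ^ k := by
    intro p hp
    exact one_le_tsum (fun k => qCoeff f (p ^ k)) (by simpa using h.one) _
      (Real.rpow_nonneg (Nat.cast_nonneg p) _) (summable_local h hB (hF p hp).1 (hF p hp).2)
  rw [← Real.log_prod (fun p hp => (lt_of_lt_of_le one_pos (h1 p hp)).ne')]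
  exact Real.log_le_log (Finset.prod_pos (fun p hp => lt_of_lt_of_le one_pos (h1 p hp)))
    (prod_tsum_le h hB F hF)

theorem ms_of_an (han : AnStatement) : MSStatement := by
  intro N _ ε f h
  obtain ⟨C, hC⟩ := han N f
  have hB2 : AnAt f 2 C := by
    intro G hG
    have := hC 2 (by norm_num) le_rfl G hG
    simpa [show (2 : ℝ) - 1 = 1 by norm_num] using this
  have hC1 : 1 ≤ C := by
    have := hB2 {1} (by simp)
    simpa [h.one] using this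
  have hC0 : 0 < C := lt_of_lt_of_le one_pos hC1
  refine ⟨Real.log C + 2 * C + 4, fun s hs1 hs2 F hF => ?_⟩
  have hB : AnAt f s (C / (s - 1)) := fun G hG => hC s hs1 hs2 G hG
  have hs0 : 0 < s - 1 := by linarith
  have hF0 : ∀ p ∈ F, p ≠ 0 := fun p hp => (hF p hp).1.ne_zero
  have e1 := sum_err_one hB2 hs1.le F hF0
  have e2 := sum_err_two hs1.le F hF0
  have e3 := sum_log_le h hB F hF
  have e4 : ∑ p ∈ F, (‖qCoeff f p‖ ^ 2 * (p : ℝ) ^ (-s)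
        - 2 * (‖qCoeff f p‖ ^ 2 * ((p : ℝ) ^ (-s)) ^ 2) - 2 * ((p : ℝ) ^ (-s)) ^ 2)
      ≤ ∑ p ∈ F, Real.log (∑' k, ‖qCoeff f (p ^ k)‖ ^ 2 * ((p : ℝ) ^ (-s)) ^ k) :=
    Finset.sum_le_sum (fun p hp => local_le h hs1.le hB (hF p hp).1 (hF p hp).2)
  rw [Finset.sum_sub_distrib, Finset.sum_sub_distrib, ← Finset.mul_sum, ← Finset.mul_sum] at e4
  have e5 : Real.log (C / (s - 1)) = Real.log C + Real.log (1 / (s - 1)) := by
    rw [div_eq_mul_one_div, Real.log_mul hC0.ne' (one_div_pos.mpr hs0).ne']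
  rw [e5] at e3
  linarith

end Fermat.Agent.S48.MS
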