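import Fermat.Agent.S48.MS.An
import Fermat.Agent.S48.MS.Main

/-!
# S48-MS: export `MSStatement` (Rankin's estimate)
-/

set_option autoImplicit false

namespace Fermat.Agent.S48.MS

/-- **Rankin's estimate**: `∑_{p ∤ N} |a_p|² p^{-s} ≤ log (1/(s-1)) + C`. -/
theorem msStatement : MSStatement :=
  ms_of_an (fun N _ f => an_bound N f)

end Fermat.Agent.S48.MS
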