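import Mathlib

/-!
# S48-MS-AN, file AnBessel: Bessel's inequality on `[0, 1]` for a bounded continuous function

Mathlib only.  PROOF of `AnBessel_main`: `hasSum_sq_fourierCoeffOn (a := 0) (b := 1) zero_lt_one hL2`
(`Mathlib/Analysis/Fourier/AddCircle.lean`) is Parseval:
`HasSum (fun i : ℤ => ‖fourierCoeffOn _ g i‖ ^ 2) ((1 - 0)⁻¹ • ∫ x in 0..1, ‖g x‖ ^ 2)`; `hL2 : MemLp g 2 (volume.restrict (Ioc 0 1))`
because `g` is continuous and bounded on a set of finite measure (`MemLp.of_bound`, or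
`hg.continuousOn ... memLp...`).  `fourierCoeffOn_eq_integral` + `fourier_coe_apply` identify the coefficient with the
integral of the statement.  A finite partial sum (over the image of `F` under `Nat.cast : ℕ → ℤ`, injective) of a `HasSum` of
nonnegative terms is `≤` the sum (`sum_le_hasSum`).  Finally `∫ x in 0..1, ‖g x‖ ^ 2 ≤ M ^ 2`
(`intervalIntegral.integral_mono_on` against the constant, or `intervalIntegral.norm_integral_le_of_norm_le_const`).
-/

set_option autoImplicit false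

namespace Fermat.Agent.S48.MS

open MeasureTheory

theorem AnBessel_main (g : ℝ → ℂ) (hg : Continuous g) (M : ℝ) (hM : ∀ x, ‖g x‖ ≤ M)
    (F : Finset ℕ) :
    ∑ n ∈ F, ‖∫ x in (0 : ℝ)..1,
      Complex.exp (-(2 * Real.pi * Complex.I * n * x)) * g x‖ ^ 2 ≤ M ^ 2 := by
  have hM0 : 0 ≤ M := le_trans (norm_nonneg _) (hM 0)
  have hL2 : MemLp g 2 (volume.restrict (Set.Ioc (0 : ℝ) 1)) :=
    MemLp.of_bound hg.aestronglyMeasurable M (Filter.Eventually.of_forall hM)
  have hP := hasSum_sq_fourierCoeffOn (a := 0) (b := 1) zero_lt_one hL2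
  have hcoef : ∀ n : ℕ, fourierCoeffOn (zero_lt_one (α := ℝ)) g (n : ℤ) =
      ∫ x in (0 : ℝ)..1, Complex.exp (-(2 * Real.pi * Complex.I * n * x)) * g x := by
    intro n
    rw [fourierCoeffOn_eq_integral]
    simp only [sub_zero, div_one, one_smul]
    refine intervalIntegral.integral_congr fun x _ => ?_
    show fourier (-(n : ℤ)) (x : AddCircle ((1 : ℝ) - 0)) • g x = _
    rw [fourier_coe_apply, smul_eq_mul]
    congr 2
    push_cast
    simp
  have hsum : ∑ n ∈ F, ‖∫ x in (0 : ℝ)..1,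
      Complex.exp (-(2 * Real.pi * Complex.I * n * x)) * g x‖ ^ 2 =
      ∑ i ∈ F.map Nat.castEmbedding, ‖fourierCoeffOn (zero_lt_one (α := ℝ)) g (i : ℤ)‖ ^ 2 := by
    rw [Finset.sum_map]
    refine Finset.sum_congr rfl fun n _ => ?_
    rw [← hcoef n]
    rfl
  rw [hsum]
  refine le_trans (sum_le_hasSum _ (fun i _ => by positivity) hP) ?_
  simp only [sub_zero, inv_one, one_smul]
  have h1 : ∫ x in (0 : ℝ)..1, ‖g x‖ ^ 2 ≤ ∫ _x in (0 : ℝ)..1, M ^ 2 := by
    refine intervalIntegral.integral_mono_on zero_le_one ?_ ?_ fun x _ => ?_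
    · exact (hg.norm.pow 2).intervalIntegrable _ _
    · exact continuous_const.intervalIntegrable _ _
    · exact pow_le_pow_left₀ (norm_nonneg _) (hM x) 2
  simpa using h1

end Fermat.Agent.S48.MS
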