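import Fermat.Agent.S48.Iface

/-!
# S48-MS-AN, file AnCoeff: the `q`-coefficients as Fourier coefficients on a horizontal line; sup bound
-/

set_option autoImplicit false

open CongruenceSubgroup UpperHalfPlane
open scoped MatrixGroups ModularForm

namespace Fermat.Agent.S48.MS

variable {N : ℕ} [NeZero N]

/-- the restriction of `f` to the horizontal line of height `y`. -/
noncomputable def line (f : CuspForm (Gamma1 N) 1) (y : ℝ) (x : ℝ) : ℂ :=
  f (ofComplex ((x : ℂ) + y * Complex.I))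

omit [NeZero N] in
theorem AnCoeff_line_eq (f : CuspForm (Gamma1 N) 1) {y : ℝ} (hy : 0 < y) (x : ℝ) :
    line f y x = f ⟨(x : ℂ) + y * Complex.I, by simpa using hy⟩ := by
  unfold line
  rw [ofComplex_apply_of_im_pos (by simpa using hy)]

theorem continuous_line (f : CuspForm (Gamma1 N) 1) {y : ℝ} (hy : 0 < y) :
    Continuous (line f y) := by
  have h : line f y = fun x : ℝ => f ⟨(x : ℂ) + y * Complex.I, by simpa using hy⟩ :=
    funext fun x => AnCoeff_line_eq f hy x
  rw [h]
  fun_prop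

/-- `CuspFormClass.exists_bound`. -/
theorem exists_line_bound (f : CuspForm (Gamma1 N) 1) :
    ∃ C₀ : ℝ, ∀ y : ℝ, 0 < y → ∀ x : ℝ, ‖line f y x‖ ^ 2 ≤ C₀ / y := by
  obtain ⟨C, hC⟩ := CuspFormClass.exists_bound f
  refine ⟨C ^ 2, fun y hy x => ?_⟩
  have h1 := hC ⟨(x : ℂ) + y * Complex.I, by simpa using hy⟩
  have him : (⟨(x : ℂ) + y * Complex.I, by simpa using hy⟩ : ℍ).im = y := by
    simp [UpperHalfPlane.im]
  rw [him] at h1
  rw [AnCoeff_line_eq f hy x]
  have h2 : (C / y ^ (((1 : ℤ) : ℝ) / 2 : ℝ)) ^ 2 = C ^ 2 / y := by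
    rw [div_pow, ← Real.rpow_mul_natCast hy.le]
    norm_num
  rw [← h2]
  exact pow_le_pow_left₀ (norm_nonneg _) h1 2

/-- `ModularFormClass.qExpansion_coeff_eq_intervalIntegral` with `h = 1`. -/
theorem qCoeff_mul_exp (f : CuspForm (Gamma1 N) 1) (n : ℕ) {y : ℝ} (hy : 0 < y) :
    ModularFormClass.qCoeff f n * Real.exp (-(2 * Real.pi * n * y)) =
      ∫ x in (0 : ℝ)..1, Complex.exp (-(2 * Real.pi * Complex.I * n * x)) * line f y x := by
  have h1 := ModularFormClass.qExpansion_coeff_eq_intervalIntegral (h := 1) f one_pos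
    (by simp) n hy
  unfold ModularFormClass.qCoeff
  rw [h1, Complex.ofReal_one, div_one, one_mul, ← intervalIntegral.integral_mul_const]
  refine intervalIntegral.integral_congr fun x _ => ?_
  show 1 / Function.Periodic.qParam 1 ((x : ℂ) + y * Complex.I) ^ n * f ⟨_, _⟩ * _ = _
  rw [AnCoeff_line_eq f hy x]
  have h2 : 1 / Function.Periodic.qParam 1 ((x : ℂ) + y * Complex.I) ^ n *
      (Real.exp (-(2 * Real.pi * n * y)) : ℂ) =
      Complex.exp (-(2 * Real.pi * Complex.I * n * x)) := by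
    rw [Function.Periodic.qParam, ← Complex.exp_nat_mul, one_div, ← Complex.exp_neg,
      Complex.ofReal_exp, ← Complex.exp_add]
    congr 1
    push_cast
    have := Complex.I_sq
    ring_nf
    rw [this]
    ring
  rw [← h2]
  ring

end Fermat.Agent.S48.MS
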