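import Fermat.Agent.S48.MS.AnReal
import Fermat.Agent.S48.MS.AnBessel
import Fermat.Agent.S48.MS.AnCoeff

/-!
# S48-MS-AN: export of the analytic half of the Rankin estimate
-/

set_option autoImplicit false

open CongruenceSubgroup UpperHalfPlane
open scoped MatrixGroups ModularForm

namespace Fermat.Agent.S48.MS

/-- Parseval (Bessel) on the line of height `y` + sup bound. -/
theorem sum_sq_exp_le (N : ℕ) [NeZero N] (f : CuspForm (Gamma1 N) 1) :
    ∃ C₀ : ℝ, ∀ y : ℝ, 0 < y → ∀ F : Finset ℕ,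
      ∑ n ∈ F, ‖ModularFormClass.qCoeff f n‖ ^ 2 * Real.exp (-(4 * Real.pi * n * y)) ≤ C₀ / y := by
  obtain ⟨C₀, hC₀⟩ := exists_line_bound f
  refine ⟨C₀, fun y hy F => ?_⟩
  have hC0 : 0 ≤ C₀ / y := le_trans (by positivity) (hC₀ y hy 0)
  have hB := AnBessel_main (line f y) (continuous_line f hy) (Real.sqrt (C₀ / y))
    (fun x => Real.le_sqrt_of_sq_le (hC₀ y hy x)) F
  rw [Real.sq_sqrt hC0] at hB
  refine le_trans (le_of_eq (Finset.sum_congr rfl fun n _ => ?_)) hB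
  rw [← qCoeff_mul_exp f n hy, norm_mul, mul_pow, Complex.norm_real, Real.norm_eq_abs,
    abs_of_pos (Real.exp_pos _), ← Real.exp_nat_mul]
  congr 2
  push_cast
  ring

theorem an_bound (N : ℕ) [NeZero N] (f : CuspForm (Gamma1 N) 1) :
    ∃ C : ℝ, ∀ s : ℝ, 1 < s → s ≤ 2 → ∀ F : Finset ℕ, (∀ n ∈ F, n ≠ 0) →
      ∑ n ∈ F, ‖ModularFormClass.qCoeff f n‖ ^ 2 * (n : ℝ) ^ (-s) ≤ C / (s - 1) := by
  obtain ⟨C₀, hC₀⟩ := sum_sq_exp_le N f
  exact AnReal_main (fun n => ‖ModularFormClass.qCoeff f n‖ ^ 2) (fun n => by positivity) C₀ hC₀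

end Fermat.Agent.S48.MS
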