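import Mathlib

/-!
# S48-MS-AN, file AnReal: from `∑ b_n e^{-4π n y} ≤ C₀ / y` to `∑ b_n n^{-s} ≤ C / (s - 1)`

Pure real analysis (Mathlib only).

PROOF of `AnReal_main`.  `0 ≤ C₀` (take `F = ∅`, `y = 1`).  Take `C = 4 e^{4π} C₀`.
For `n ≠ 0` put `k = Nat.log 2 n`, so `2 ^ k ≤ n < 2 ^ (k + 1)` (`Nat.pow_log_le_self`,
`Nat.lt_pow_succ_log_self`); then `n ^ (-s) ≤ (2 ^ k) ^ (-s)` and
`e^{-4π} ≤ e^{-4π n / 2 ^ (k + 1)}` : this is `AnReal_term`.  Choose `K` with `Nat.log 2 n < K` for all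
`n ∈ F` (e.g. `K = F.sup (Nat.log 2) + 1`).  By `Finset.single_le_sum`,
`n ^ (-s) ≤ e^{4π} ∑_{j < K} (2 ^ j) ^ (-s) e^{-4π n / 2 ^ (j + 1)}`.  Multiply by `b n`, sum over `F`,
exchange the sums (`Finset.sum_comm`), apply `h` with `y = 1 / 2 ^ (j + 1)`:
`∑_F b_n n^{-s} ≤ e^{4π} ∑_{j<K} (2^j)^{-s} C₀ 2^{j+1} = 2 e^{4π} C₀ ∑_{j<K} (2^{-(s-1)})^j
  ≤ 2 e^{4π} C₀ / (1 - 2^{-(s-1)}) ≤ 4 e^{4π} C₀ / (s - 1)` (`AnReal_geom`, `AnReal_two_rpow`).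
-/

set_option autoImplicit false

namespace Fermat.Agent.S48.MS

/-- weighted AM-GM (`Real.geom_mean_le_arith_mean2_weighted` with `p₁ = 1/2`, `p₂ = 1`). -/
theorem AnReal_two_rpow {t : ℝ} (h0 : 0 ≤ t) (h1 : t ≤ 1) : (2 : ℝ) ^ (-t) ≤ 1 - t / 2 := by
  have h := Real.geom_mean_le_arith_mean2_weighted (w₁ := t) (w₂ := 1 - t) (p₁ := 1 / 2) (p₂ := 1)
    h0 (by linarith) (by norm_num) (by norm_num) (by ring)
  rw [Real.one_rpow, mul_one] at h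
  have h2 : ((1 : ℝ) / 2) ^ t = (2 : ℝ) ^ (-t) := by
    rw [one_div, Real.inv_rpow (by norm_num), Real.rpow_neg (by norm_num)]
  rw [h2] at h
  linarith

/-- partial sums of the geometric series. -/
theorem AnReal_geom {r : ℝ} (h0 : 0 ≤ r) (h1 : r < 1) (K : ℕ) :
    ∑ j ∈ Finset.range K, r ^ j ≤ 1 / (1 - r) := by
  rw [one_div]
  exact sum_le_hasSum _ (fun i _ => pow_nonneg h0 i) (hasSum_geometric_of_lt_one h0 h1)

/-- the pointwise inequality. -/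
theorem AnReal_term {n : ℕ} (hn : n ≠ 0) {s : ℝ} (hs : 0 ≤ s) :
    (n : ℝ) ^ (-s) ≤ Real.exp (4 * Real.pi) * (((2 : ℝ) ^ (Nat.log 2 n)) ^ (-s) *
      Real.exp (-(4 * Real.pi * n * (1 / 2 ^ (Nat.log 2 n + 1))))) := by
  set k := Nat.log 2 n with hk
  have h1 : (2 : ℝ) ^ k ≤ n := by exact_mod_cast Nat.pow_log_le_self 2 hn
  have h2 : (n : ℝ) < 2 ^ (k + 1) := by
    exact_mod_cast Nat.lt_pow_succ_log_self (by norm_num : 1 < 2) n
  have hpos : (0 : ℝ) < 2 ^ k := by positivity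
  have h3 : (n : ℝ) ^ (-s) ≤ ((2 : ℝ) ^ k) ^ (-s) :=
    Real.rpow_le_rpow_of_nonpos hpos h1 (by linarith)
  have h4 : (n : ℝ) * (1 / 2 ^ (k + 1)) ≤ 1 := by
    rw [mul_one_div, div_le_one (by positivity)]
    exact h2.le
  have h5 : 1 ≤ Real.exp (4 * Real.pi) * Real.exp (-(4 * Real.pi * n * (1 / 2 ^ (k + 1)))) := by
    rw [← Real.exp_add]
    apply Real.one_le_exp
    have : 4 * Real.pi * n * (1 / 2 ^ (k + 1)) ≤ 4 * Real.pi := by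
      have hp : 0 ≤ 4 * Real.pi := by positivity
      calc 4 * Real.pi * n * (1 / 2 ^ (k + 1)) = 4 * Real.pi * (n * (1 / 2 ^ (k + 1))) := by ring
        _ ≤ 4 * Real.pi * 1 := mul_le_mul_of_nonneg_left h4 hp
        _ = 4 * Real.pi := mul_one _
    linarith
  have h6 : 0 ≤ ((2 : ℝ) ^ k) ^ (-s) := by positivity
  calc (n : ℝ) ^ (-s) ≤ ((2 : ℝ) ^ k) ^ (-s) * 1 := by rw [mul_one]; exact h3
    _ ≤ ((2 : ℝ) ^ k) ^ (-s) *
        (Real.exp (4 * Real.pi) * Real.exp (-(4 * Real.pi * n * (1 / 2 ^ (k + 1))))) :=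
      mul_le_mul_of_nonneg_left h5 h6
    _ = _ := by ring

theorem AnReal_main (b : ℕ → ℝ) (hb : ∀ n, 0 ≤ b n) (C₀ : ℝ)
    (h : ∀ y : ℝ, 0 < y → ∀ F : Finset ℕ,
      ∑ n ∈ F, b n * Real.exp (-(4 * Real.pi * n * y)) ≤ C₀ / y) :
    ∃ C : ℝ, ∀ s : ℝ, 1 < s → s ≤ 2 → ∀ F : Finset ℕ, (∀ n ∈ F, n ≠ 0) →
      ∑ n ∈ F, b n * (n : ℝ) ^ (-s) ≤ C / (s - 1) := by
  have hC0 : 0 ≤ C₀ := by
    have := h 1 one_pos ∅
    simpa using this
  refine ⟨4 * Real.exp (4 * Real.pi) * C₀, fun s hs1 hs2 F hF => ?_⟩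
  set E := Real.exp (4 * Real.pi) with hE
  have hE0 : 0 ≤ E := (Real.exp_pos _).le
  set K := F.sup (Nat.log 2) + 1 with hK
  -- pointwise bound by the full sum over `j < K`
  have hpt : ∀ n ∈ F, b n * (n : ℝ) ^ (-s) ≤
      ∑ j ∈ Finset.range K, E * (((2 : ℝ) ^ j) ^ (-s) *
        (b n * Real.exp (-(4 * Real.pi * n * (1 / 2 ^ (j + 1)))))) := by
    intro n hn
    have hmem : Nat.log 2 n ∈ Finset.range K :=
      Finset.mem_range.2 (Nat.lt_succ_of_le (Finset.le_sup (f := Nat.log 2) hn))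
    have h1 := Finset.single_le_sum (f := fun j => E * (((2 : ℝ) ^ j) ^ (-s) *
        (b n * Real.exp (-(4 * Real.pi * n * (1 / 2 ^ (j + 1))))))) (fun j _ => by
          have := hb n
          positivity) hmem
    refine le_trans ?_ h1
    have h2 := mul_le_mul_of_nonneg_left (AnReal_term (hF n hn) (by linarith : (0 : ℝ) ≤ s)) (hb n)
    refine le_trans h2 (le_of_eq ?_)
    ring
  set r := (2 : ℝ) ^ (-(s - 1)) with hr
  have hr0 : 0 ≤ r := by positivity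
  have hr1 : r ≤ 1 - (s - 1) / 2 := AnReal_two_rpow (by linarith) (by linarith)
  have hr1' : r < 1 := by linarith
  have hterm : ∀ j ∈ Finset.range K, ∑ n ∈ F, E * (((2 : ℝ) ^ j) ^ (-s) *
        (b n * Real.exp (-(4 * Real.pi * n * (1 / 2 ^ (j + 1)))))) ≤ 2 * E * C₀ * r ^ j := by
    intro j _
    rw [← Finset.mul_sum, ← Finset.mul_sum]
    have h1 := h (1 / 2 ^ (j + 1)) (by positivity) F
    have h2 : C₀ / (1 / 2 ^ (j + 1)) = C₀ * 2 ^ (j + 1) := by rw [div_div_eq_mul_div, div_one]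
    rw [h2] at h1
    have h3 : 0 ≤ ((2 : ℝ) ^ j) ^ (-s) := by positivity
    have h4 : ((2 : ℝ) ^ j) ^ (-s) * 2 ^ j = r ^ j := by
      rw [hr, ← Real.rpow_natCast 2 j, ← Real.rpow_mul (by norm_num), ← Real.rpow_natCast _ j,
        ← Real.rpow_mul (by norm_num), ← Real.rpow_add (by norm_num)]
      congr 1
      ring
    calc E * (((2 : ℝ) ^ j) ^ (-s) * ∑ n ∈ F, b n * Real.exp (-(4 * Real.pi * n * (1 / 2 ^ (j + 1)))))
        ≤ E * (((2 : ℝ) ^ j) ^ (-s) * (C₀ * 2 ^ (j + 1))) :=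
          mul_le_mul_of_nonneg_left (mul_le_mul_of_nonneg_left h1 h3) hE0
      _ = 2 * E * C₀ * (((2 : ℝ) ^ j) ^ (-s) * 2 ^ j) := by rw [pow_succ]; ring
      _ = 2 * E * C₀ * r ^ j := by rw [h4]
  calc ∑ n ∈ F, b n * (n : ℝ) ^ (-s)
      ≤ ∑ n ∈ F, ∑ j ∈ Finset.range K, E * (((2 : ℝ) ^ j) ^ (-s) *
        (b n * Real.exp (-(4 * Real.pi * n * (1 / 2 ^ (j + 1)))))) := Finset.sum_le_sum hpt
    _ = ∑ j ∈ Finset.range K, ∑ n ∈ F, E * (((2 : ℝ) ^ j) ^ (-s) *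
        (b n * Real.exp (-(4 * Real.pi * n * (1 / 2 ^ (j + 1)))))) := Finset.sum_comm
    _ ≤ ∑ j ∈ Finset.range K, 2 * E * C₀ * r ^ j := Finset.sum_le_sum hterm
    _ = 2 * E * C₀ * ∑ j ∈ Finset.range K, r ^ j := by rw [Finset.mul_sum]
    _ ≤ 2 * E * C₀ * (1 / (1 - r)) :=
        mul_le_mul_of_nonneg_left (AnReal_geom hr0 hr1' K) (by positivity)
    _ ≤ 2 * E * C₀ * (2 / (s - 1)) := by
        refine mul_le_mul_of_nonneg_left ?_ (by positivity)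
        rw [div_le_div_iff₀ (by linarith) (by linarith)]
        linarith
    _ = 4 * E * C₀ / (s - 1) := by ring

end Fermat.Agent.S48.MS
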