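import Fermat.Agent.S48.MS.Prod

/-!
# S48-MS, file `Err`: the error terms
-/

set_option autoImplicit false

open CongruenceSubgroup ModularFormClass

namespace Fermat.Agent.S48.MS

variable {N : ℕ} [NeZero N] {f : CuspForm (Gamma1 N) 1}

/-- `p ^ (-s) ≤ 1/2` for `p ≥ 2`, `s ≥ 1`. -/
theorem rpow_neg_le_half {p : ℕ} (hp : 2 ≤ p) {s : ℝ} (hs : 1 ≤ s) : (p : ℝ) ^ (-s) ≤ 1 / 2 := by
  have hp' : (2 : ℝ) ≤ p := by exact_mod_cast hp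
  have h1 : (p : ℝ) ^ (1 : ℝ) ≤ (p : ℝ) ^ s :=
    Real.rpow_le_rpow_of_exponent_le (by linarith) hs
  rw [Real.rpow_one] at h1
  rw [Real.rpow_neg (Nat.cast_nonneg p), one_div]
  exact inv_anti₀ (by norm_num) (by linarith)

/-- `(p ^ (-s)) ^ 2 ≤ p ^ (-2)` for `p ≥ 1`, `s ≥ 1`. -/
theorem rpow_neg_sq_le {p : ℕ} (hp : 1 ≤ p) {s : ℝ} (hs : 1 ≤ s) :
    ((p : ℝ) ^ (-s)) ^ 2 ≤ (p : ℝ) ^ (-(2 : ℝ)) := by
  have hp' : (1 : ℝ) ≤ p := by exact_mod_cast hp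
  rw [← Real.rpow_natCast _ 2, ← Real.rpow_mul (Nat.cast_nonneg p)]
  refine Real.rpow_le_rpow_of_exponent_le hp' ?_
  push_cast
  linarith

/-- `∑_{p ∈ F} |a_p|² p^(-2s) ≤ B₂` where `B₂` is the bound at `s = 2`. -/
theorem sum_err_one {B₂ : ℝ} (hB : AnAt f 2 B₂) {s : ℝ} (hs : 1 ≤ s) (F : Finset ℕ)
    (hF : ∀ p ∈ F, p ≠ 0) :
    ∑ p ∈ F, ‖qCoeff f p‖ ^ 2 * ((p : ℝ) ^ (-s)) ^ 2 ≤ B₂ := by
  refine le_trans (Finset.sum_le_sum fun p hp => ?_) (hB F hF)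
  exact mul_le_mul_of_nonneg_left
    (rpow_neg_sq_le (Nat.one_le_iff_ne_zero.2 (hF p hp)) hs) (by positivity)

/-- `∑_{p ∈ F} p^(-2s) ≤ 2` (`∑ 1/n² = π²/6 ≤ 2`: `hasSum_zeta_two`, `Real.pi_lt_d2`, or the telescoping
bound `1/n² ≤ 1/(n-1) - 1/n`). -/
theorem sum_err_two {s : ℝ} (hs : 1 ≤ s) (F : Finset ℕ) (hF : ∀ p ∈ F, p ≠ 0) :
    ∑ p ∈ F, ((p : ℝ) ^ (-s)) ^ 2 ≤ 2 := by
  have h1 : ∑ p ∈ F, ((p : ℝ) ^ (-s)) ^ 2 ≤ ∑ p ∈ F, 1 / (p : ℝ) ^ 2 := by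
    refine Finset.sum_le_sum fun p hp => ?_
    refine le_trans (rpow_neg_sq_le (Nat.one_le_iff_ne_zero.2 (hF p hp)) hs) (le_of_eq ?_)
    rw [Real.rpow_neg (Nat.cast_nonneg p), one_div]
    norm_cast
  have h2 : ∑ p ∈ F, 1 / (p : ℝ) ^ 2 ≤ Real.pi ^ 2 / 6 :=
    sum_le_hasSum F (fun i _ => by positivity) hasSum_zeta_two
  have h3 : Real.pi ^ 2 / 6 ≤ 2 := by
    have h4 := Real.pi_lt_d2
    have h5 := Real.pi_pos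
    nlinarith
  linarith

end Fermat.Agent.S48.MS
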