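import Mathlib

/-!
# S48-MS, file `Euler` (Mathlib only): finite truncated Euler products are finite sums
-/

set_option autoImplicit false

namespace Fermat.Agent.S48.MS

theorem Euler_aux (g : ℕ → ℝ) (hg1 : g 1 = 1) (K : ℕ) (F : Finset ℕ) :
    (∀ p ∈ F, p.Prime) →
    (∀ p ∈ F, ∀ k m : ℕ, ¬ p ∣ m → g (p ^ k * m) = g (p ^ k) * g m) →
    ∃ G : Finset ℕ, (∀ n ∈ G, n ≠ 0 ∧ ∀ q : ℕ, q.Prime → q ∣ n → q ∈ F) ∧
      ∏ p ∈ F, ∑ k ∈ Finset.range K, g (p ^ k) = ∑ n ∈ G, g n := by
  induction F using Finset.induction_on with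
  | empty =>
    intro _ _
    refine ⟨{1}, ?_, by simp [hg1]⟩
    intro n hn
    rw [Finset.mem_singleton] at hn
    subst hn
    refine ⟨one_ne_zero, fun q hq hq1 => ?_⟩
    exact absurd (Nat.dvd_one.mp hq1) hq.one_lt.ne'
  | insert p F hpF ih =>
    intro hF hg
    obtain ⟨G, hG, hprod⟩ := ih (fun q hq => hF q (Finset.mem_insert_of_mem hq))
      (fun q hq => hg q (Finset.mem_insert_of_mem hq))
    have hp : p.Prime := hF p (Finset.mem_insert_self p F)
    have hpG : ∀ n ∈ G, ¬ p ∣ n := fun n hn hpn => hpF ((hG n hn).2 p hp hpn)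
    refine ⟨(Finset.range K ×ˢ G).image (fun kn => p ^ kn.1 * kn.2), ?_, ?_⟩
    · intro n hn
      rw [Finset.mem_image] at hn
      obtain ⟨⟨k, m⟩, hkm, rfl⟩ := hn
      rw [Finset.mem_product] at hkm
      refine ⟨mul_ne_zero (pow_ne_zero _ hp.ne_zero) (hG m hkm.2).1, fun q hq hqd => ?_⟩
      rcases (Nat.Prime.dvd_mul hq).mp hqd with h1 | h1
      · have := (Nat.prime_dvd_prime_iff_eq hq hp).mp (hq.dvd_of_dvd_pow h1)
        rw [this]
        exact Finset.mem_insert_self p F
      · exact Finset.mem_insert_of_mem ((hG m hkm.2).2 q hq h1)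
    · rw [Finset.prod_insert hpF, hprod, Finset.sum_mul_sum, ← Finset.sum_product',
        Finset.sum_image]
      · refine Finset.sum_congr rfl (fun kn hkn => ?_)
        rw [Finset.mem_product] at hkn
        exact (hg p (Finset.mem_insert_self p F) kn.1 kn.2 (hpG kn.2 hkn.2)).symm
      · rintro ⟨k, m⟩ hkm ⟨k', m'⟩ hkm' heq
        rw [Finset.mem_coe, Finset.mem_product] at hkm hkm'
        simp only at heq hkm hkm'
        have hm := hpG m hkm.2
        have hm' := hpG m' hkm'.2
        have hm0 := (hG m hkm.2).1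
        have hm0' := (hG m' hkm'.2).1
        have hk : k = k' := by
          have e1 : (p ^ k * m).factorization p = k := by
            rw [Nat.factorization_mul (pow_ne_zero _ hp.ne_zero) hm0]
            simp [hp.factorization_self, Nat.factorization_eq_zero_of_not_dvd hm]
          have e2 : (p ^ k' * m').factorization p = k' := by
            rw [Nat.factorization_mul (pow_ne_zero _ hp.ne_zero) hm0']
            simp [hp.factorization_self, Nat.factorization_eq_zero_of_not_dvd hm']
          rw [← e1, ← e2, heq]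
        subst hk
        have : m = m' := Nat.eq_of_mul_eq_mul_left (pow_pos hp.pos k) heq
        rw [this]

/-- Induction on `F` (`Finset.induction_on`), with the stronger statement that every prime factor of
an element of `G` lies in `F`.  `F = ∅`: `G = {1}`.  `insert p F`: `G' =` image of `range K ×ˢ G` under
`(k, n) ↦ p ^ k * n`, which is injective there as `p ∤ n` for `n ∈ G` (`Finset.sum_image`,
`Finset.sum_mul_sum`, `Finset.sum_product`). -/
theorem exists_finset_prod_eq (g : ℕ → ℝ) (F : Finset ℕ) (hF : ∀ p ∈ F, p.Prime) (hg1 : g 1 = 1)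
    (hg : ∀ p ∈ F, ∀ k m : ℕ, ¬ p ∣ m → g (p ^ k * m) = g (p ^ k) * g m) (K : ℕ) :
    ∃ G : Finset ℕ, (∀ n ∈ G, n ≠ 0) ∧
      ∏ p ∈ F, ∑ k ∈ Finset.range K, g (p ^ k) = ∑ n ∈ G, g n := by
  obtain ⟨G, hG, h⟩ := Euler_aux g hg1 K F hF hg
  exact ⟨G, fun n hn => (hG n hn).1, h⟩

end Fermat.Agent.S48.MS
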