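import Fermat.Agent.S48.MS.Rec

/-!
# S48-MS, file `Local`: `D(x) P(x) = 1 - x²`
-/

set_option autoImplicit false

open ComplexConjugate

namespace Fermat.Agent.S48.MS

/-- Abstract form (Mathlib only): a summable sequence `v k * x ^ k` with a linear recurrence of order
four.  `∑' = v0 + v1 x + v2 x² + v3 x³ + ∑' v (k+4) x^(k+4)` etc. (`Summable.sum_add_tsum_nat_add`,
`tsum_mul_left`, `Summable.tsum_add`, or `HasSum` versions). -/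
theorem tsum_mul_poly_aux (v : ℕ → ℝ) (t c x : ℝ)
    (hv : ∀ k, v (k + 4) = t * v (k + 3) - c * v (k + 2) + t * v (k + 1) - v k)
    (hs : Summable fun k => v k * x ^ k) :
    (∑' k, v k * x ^ k) * (1 - t * x + c * x ^ 2 - t * x ^ 3 + x ^ 4)
      = v 0 + (v 1 - t * v 0) * x + (v 2 - t * v 1 + c * v 0) * x ^ 2
        + (v 3 - t * v 2 + c * v 1 - t * v 0) * x ^ 3 := by
  set S := ∑' k, v k * x ^ k with hS
  have h0 : HasSum (fun k => v k * x ^ k) S := hs.hasSum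
  have h1 := (hasSum_nat_add_iff' (f := fun k => v k * x ^ k) 1).2 h0
  have h2 := (hasSum_nat_add_iff' (f := fun k => v k * x ^ k) 2).2 h0
  have h3 := (hasSum_nat_add_iff' (f := fun k => v k * x ^ k) 3).2 h0
  have h4 := (hasSum_nat_add_iff' (f := fun k => v k * x ^ k) 4).2 h0
  have hc := (((h3.mul_left (t * x)).sub (h2.mul_left (c * x ^ 2))).add
    (h1.mul_left (t * x ^ 3))).sub (h0.mul_left (x ^ 4))
  have hfun : (fun k => v (k + 4) * x ^ (k + 4)) = fun k =>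
      t * x * (v (k + 3) * x ^ (k + 3)) - c * x ^ 2 * (v (k + 2) * x ^ (k + 2)) +
        t * x ^ 3 * (v (k + 1) * x ^ (k + 1)) - x ^ 4 * (v k * x ^ k) := by
    funext k
    rw [hv k]
    ring
  rw [hfun] at h4
  have hu := h4.unique hc
  simp only [Finset.sum_range_succ, Finset.sum_range_zero] at hu
  linear_combination hu

/-- From `tsum_mul_poly_aux`, `normSq_rec`, `normSq_two`, `normSq_three`. -/
theorem tsum_mul_poly (a e : ℂ) (he : ‖e‖ = 1) (u : ℕ → ℂ) (h0 : u 0 = 1) (h1 : u 1 = a)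
    (hu : ∀ k, u (k + 2) = a * u (k + 1) - e * u k) (x : ℝ)
    (hs : Summable fun k => ‖u k‖ ^ 2 * x ^ k) :
    (∑' k, ‖u k‖ ^ 2 * x ^ k) * (1 - ‖a‖ ^ 2 * x + (2 * (a ^ 2 * conj e).re - 2) * x ^ 2
      - ‖a‖ ^ 2 * x ^ 3 + x ^ 4) = 1 - x ^ 2 := by
  have h := tsum_mul_poly_aux (fun k => ‖u k‖ ^ 2) (‖a‖ ^ 2) (2 * (a ^ 2 * conj e).re - 2) x
    (fun k => normSq_rec a e he u hu k) hs
  rw [h]
  show ‖u 0‖ ^ 2 + (‖u 1‖ ^ 2 - ‖a‖ ^ 2 * ‖u 0‖ ^ 2) * x +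
    (‖u 2‖ ^ 2 - ‖a‖ ^ 2 * ‖u 1‖ ^ 2 + (2 * (a ^ 2 * conj e).re - 2) * ‖u 0‖ ^ 2) * x ^ 2 +
    (‖u 3‖ ^ 2 - ‖a‖ ^ 2 * ‖u 2‖ ^ 2 + (2 * (a ^ 2 * conj e).re - 2) * ‖u 1‖ ^ 2 -
      ‖a‖ ^ 2 * ‖u 0‖ ^ 2) * x ^ 3 = 1 - x ^ 2
  rw [normSq_three a e he u h0 h1 hu, normSq_two a e he u h0 h1 hu, h0, h1, norm_one]
  ring

end Fermat.Agent.S48.MS
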