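import Fermat.Agent.S48.Iface

/-!
# S48-MS, file `Mult`: multiplicativity of the coefficients away from the level (formal, from `Hyp`)
-/

set_option autoImplicit false

open CongruenceSubgroup ModularFormClass

namespace Fermat.Agent.S48.MS

variable {N : ℕ} [NeZero N] {ε : DirichletCharacter ℂ N} {f : CuspForm (Gamma1 N) 1}

/-- `Hyp.hecke` for `n = p * m`. -/
theorem Mult_hecke_mul (h : Hyp N ε f) {p : ℕ} (hp : p.Prime) (hpN : ¬ p ∣ N) (m : ℕ) :
    qCoeff f (p * (p * m)) = qCoeff f p * qCoeff f (p * m) - ε (p : ZMod N) * qCoeff f m := by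
  have := h.hecke p hp hpN (p * m)
  rw [if_pos (Dvd.intro m rfl), Nat.mul_div_cancel_left m hp.pos] at this
  rw [← this]
  ring

/-- `a_{p^(k+2)} = a_p a_{p^(k+1)} - ε(p) a_{p^k}` (`Hyp.hecke` with `n = p^(k+1)`). -/
theorem qCoeff_pow_succ_succ (h : Hyp N ε f) {p : ℕ} (hp : p.Prime) (hpN : ¬ p ∣ N) (k : ℕ) :
    qCoeff f (p ^ (k + 2)) =
      qCoeff f p * qCoeff f (p ^ (k + 1)) - ε (p : ZMod N) * qCoeff f (p ^ k) := by
  have := Mult_hecke_mul h hp hpN (p ^ k)
  rw [show p * (p * p ^ k) = p ^ (k + 2) by ring, show p * p ^ k = p ^ (k + 1) by ring] at this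
  exact this

/-- `a_{p^k m} = a_{p^k} a_m` for `p ∤ m` (two-step induction on `k`: `k = 0` is `Hyp.one`, `k = 1` is
`Hyp.hecke` with `n = m`, `k + 2` is `Hyp.hecke` with `n = p^(k+1) m` and `qCoeff_pow_succ_succ`). -/
theorem qCoeff_pow_mul (h : Hyp N ε f) {p : ℕ} (hp : p.Prime) (hpN : ¬ p ∣ N) (k m : ℕ)
    (hm : ¬ p ∣ m) : qCoeff f (p ^ k * m) = qCoeff f (p ^ k) * qCoeff f m := by
  induction k using Nat.twoStepInduction with
  | zero => simp [h.one]
  | one =>
    have := h.hecke p hp hpN m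
    rw [if_neg hm, mul_zero, add_zero] at this
    simpa using this
  | more k ih0 ih1 =>
    have h1 := Mult_hecke_mul h hp hpN (p ^ k * m)
    rw [show p * (p * (p ^ k * m)) = p ^ (k + 2) * m by ring,
      show p * (p ^ k * m) = p ^ (k + 1) * m by ring, ih0, ih1] at h1
    rw [h1, qCoeff_pow_succ_succ h hp hpN k]
    ring

/-- `|ε(p)| = 1` for `p ∤ N` (`DirichletCharacter.unit_norm_eq_one`, `ZMod.unitOfCoprime`). -/
theorem norm_eps (ε : DirichletCharacter ℂ N) {p : ℕ} (hp : p.Prime) (hpN : ¬ p ∣ N) :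
    ‖ε (p : ZMod N)‖ = 1 := by
  have hcop : p.Coprime N := (Nat.Prime.coprime_iff_not_dvd hp).mpr hpN
  have := DirichletCharacter.unit_norm_eq_one ε (ZMod.unitOfCoprime p hcop)
  simpa using this

end Fermat.Agent.S48.MS
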