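import Fermat.Agent.S48.MS.Mult
import Fermat.Agent.S48.MS.Euler

/-!
# S48-MS, file `Prod`: the finite Euler products are bounded by the Dirichlet series
-/

set_option autoImplicit false

open CongruenceSubgroup ModularFormClass

namespace Fermat.Agent.S48.MS

variable {N : ℕ} [NeZero N] {ε : DirichletCharacter ℂ N} {f : CuspForm (Gamma1 N) 1}

/-- The hypothesis provided by the analytic half (`an_bound`, helper90), for one `s`. -/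
def AnAt (f : CuspForm (Gamma1 N) 1) (s B : ℝ) : Prop :=
  ∀ G : Finset ℕ, (∀ n ∈ G, n ≠ 0) → ∑ n ∈ G, ‖qCoeff f n‖ ^ 2 * (n : ℝ) ^ (-s) ≤ B

/-- `((p ^ k : ℕ) : ℝ) ^ (-s) = (p ^ (-s)) ^ k` (`Real.rpow_natCast_mul`-style lemmas). -/
theorem natCast_pow_rpow (p k : ℕ) (s : ℝ) :
    (((p ^ k : ℕ) : ℝ)) ^ (-s) = ((p : ℝ) ^ (-s)) ^ k := by
  rw [Nat.cast_pow, ← Real.rpow_natCast (p : ℝ) k, ← Real.rpow_natCast _ k,
    ← Real.rpow_mul (Nat.cast_nonneg p), ← Real.rpow_mul (Nat.cast_nonneg p), mul_comm]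

/-- truncated products (`exists_finset_prod_eq` for `g n = ‖a_n‖² n^(-s)`, `qCoeff_pow_mul`,
`Real.mul_rpow`, `Hyp.one`). -/
theorem prod_sum_le (h : Hyp N ε f) {s B : ℝ} (hB : AnAt f s B) (F : Finset ℕ)
    (hF : ∀ p ∈ F, p.Prime ∧ ¬ p ∣ N) (K : ℕ) :
    ∏ p ∈ F, ∑ k ∈ Finset.range K, ‖qCoeff f (p ^ k)‖ ^ 2 * ((p : ℝ) ^ (-s)) ^ k ≤ B := by
  obtain ⟨G, hG0, hG⟩ := exists_finset_prod_eq (fun n => ‖qCoeff f n‖ ^ 2 * (n : ℝ) ^ (-s)) F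
    (fun p hp => (hF p hp).1) (by simp [h.one])
    (fun p hp k m hm => by
      show ‖qCoeff f (p ^ k * m)‖ ^ 2 * ((p ^ k * m : ℕ) : ℝ) ^ (-s) =
        ‖qCoeff f (p ^ k)‖ ^ 2 * ((p ^ k : ℕ) : ℝ) ^ (-s) * (‖qCoeff f m‖ ^ 2 * (m : ℝ) ^ (-s))
      rw [qCoeff_pow_mul h (hF p hp).1 (hF p hp).2 k m hm, norm_mul, mul_pow, Nat.cast_mul,
        Real.mul_rpow (Nat.cast_nonneg _) (Nat.cast_nonneg _)]
      ring) K
  have h1 : ∏ p ∈ F, ∑ k ∈ Finset.range K, ‖qCoeff f (p ^ k)‖ ^ 2 * ((p : ℝ) ^ (-s)) ^ k =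
      ∏ p ∈ F, ∑ k ∈ Finset.range K, ‖qCoeff f (p ^ k)‖ ^ 2 * ((p ^ k : ℕ) : ℝ) ^ (-s) :=
    Finset.prod_congr rfl fun p _ => Finset.sum_congr rfl fun k _ => by
      rw [natCast_pow_rpow]
  rw [h1, hG]
  exact hB G hG0

/-- summability of the local factor (`prod_sum_le` for `F = {p}`, `summable_of_sum_range_le`). -/
theorem summable_local (h : Hyp N ε f) {s B : ℝ} (hB : AnAt f s B) {p : ℕ} (hp : p.Prime)
    (hpN : ¬ p ∣ N) : Summable fun k => ‖qCoeff f (p ^ k)‖ ^ 2 * ((p : ℝ) ^ (-s)) ^ k := by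
  refine summable_of_sum_range_le (c := B) (fun k => by positivity) fun K => ?_
  have := prod_sum_le h hB {p} (fun q hq => by
    rw [Finset.mem_singleton] at hq
    subst hq
    exact ⟨hp, hpN⟩) K
  simpa using this

/-- limit `K → ∞` of `prod_sum_le` (`tendsto_finset_prod`, `HasSum.tendsto_sum_nat`,
`le_of_tendsto'`). -/
theorem prod_tsum_le (h : Hyp N ε f) {s B : ℝ} (hB : AnAt f s B) (F : Finset ℕ)
    (hF : ∀ p ∈ F, p.Prime ∧ ¬ p ∣ N) :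
    ∏ p ∈ F, ∑' k, ‖qCoeff f (p ^ k)‖ ^ 2 * ((p : ℝ) ^ (-s)) ^ k ≤ B := by
  have ht : Filter.Tendsto (fun K : ℕ => ∏ p ∈ F, ∑ k ∈ Finset.range K,
      ‖qCoeff f (p ^ k)‖ ^ 2 * ((p : ℝ) ^ (-s)) ^ k) Filter.atTop
      (nhds (∏ p ∈ F, ∑' k, ‖qCoeff f (p ^ k)‖ ^ 2 * ((p : ℝ) ^ (-s)) ^ k)) :=
    tendsto_finsetProd F fun p hp =>
      (summable_local h hB (hF p hp).1 (hF p hp).2).hasSum.tendsto_sum_nat
  exact le_of_tendsto' ht fun K => prod_sum_le h hB F hF K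

end Fermat.Agent.S48.MS
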