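import Mathlib

/-!
# S48-MS, file `Rec` (Mathlib only): the linear recurrence of order four of `|u_k|²`

`u_{k+2} = a u_{k+1} - e u_k`, `|e| = 1`.  With `t = |a|²`, `r = 2 Re (a² ē)`:
`v_{k+4} = t v_{k+3} - (r - 2) v_{k+2} + t v_{k+1} - v_k` for `v_k = |u_k|²`.
-/

set_option autoImplicit false

open ComplexConjugate

namespace Fermat.Agent.S48.MS

theorem Rec_sq (z : ℂ) : ((‖z‖ ^ 2 : ℝ) : ℂ) = z * conj z := by
  rw [Complex.mul_conj, Complex.normSq_eq_norm_sq]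

theorem Rec_re (z : ℂ) : ((2 * z.re : ℝ) : ℂ) = z + conj z := by
  rw [Complex.add_conj]

theorem Rec_mul_conj {e : ℂ} (he : ‖e‖ = 1) : e * conj e = 1 := by
  rw [← Rec_sq, he]; norm_num

/-- Work in `ℂ`: `(‖z‖ ^ 2 : ℂ) = z * conj z` (`Complex.mul_conj`, `Complex.normSq_eq_norm_sq`),
`2 Re z = z + conj z`, expand `u (k+4), u (k+3), u (k+2)` in terms of `u (k+1), u k`: polynomial identity
modulo `e * conj e = 1` (`linear_combination (...) * he'`). -/
theorem normSq_rec (a e : ℂ) (he : ‖e‖ = 1) (u : ℕ → ℂ)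
    (hu : ∀ k, u (k + 2) = a * u (k + 1) - e * u k) (k : ℕ) :
    ‖u (k + 4)‖ ^ 2 = ‖a‖ ^ 2 * ‖u (k + 3)‖ ^ 2 - (2 * (a ^ 2 * conj e).re - 2) * ‖u (k + 2)‖ ^ 2
      + ‖a‖ ^ 2 * ‖u (k + 1)‖ ^ 2 - ‖u k‖ ^ 2 := by
  have he' : e * conj e = 1 := Rec_mul_conj he
  apply Complex.ofReal_injective
  push_cast
  have hre := Rec_re (a ^ 2 * conj e)
  push_cast at hre
  simp only [← Complex.ofReal_pow, Rec_sq]
  rw [hre]
  have h2 := hu k
  have h3 := hu (k + 1)
  have h4 := hu (k + 2)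
  rw [show k + 2 + 2 = k + 4 by ring, show k + 2 + 1 = k + 3 by ring] at h4
  rw [show k + 1 + 2 = k + 3 by ring, show k + 1 + 1 = k + 2 by ring] at h3
  rw [h4, h3, h2]
  simp only [map_sub, map_mul, map_pow, Complex.conj_conj]
  generalize conj e = eb at *
  generalize conj a = ab
  generalize conj (u (k+1)) = u1b
  generalize conj (u k) = u0b
  generalize u (k+1) = u1
  generalize u k = u0
  have he0 : e ≠ 0 := by
    rintro rfl
    simp at he'
  have : eb = e⁻¹ := by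
    field_simp
    linear_combination he'
  subst this
  field_simp
  ring

theorem normSq_two (a e : ℂ) (he : ‖e‖ = 1) (u : ℕ → ℂ) (h0 : u 0 = 1) (h1 : u 1 = a)
    (hu : ∀ k, u (k + 2) = a * u (k + 1) - e * u k) :
    ‖u 2‖ ^ 2 = (‖a‖ ^ 2) ^ 2 - 2 * (a ^ 2 * conj e).re + 1 := by
  have he' : e * conj e = 1 := Rec_mul_conj he
  apply Complex.ofReal_injective
  push_cast
  have hre := Rec_re (a ^ 2 * conj e)
  push_cast at hre
  simp only [← Complex.ofReal_pow, Rec_sq]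
  rw [hre]
  have h2 := hu 0
  rw [show 0 + 2 = 2 by ring, show 0 + 1 = 1 by ring, h0, h1] at h2
  rw [h2]
  simp only [map_sub, map_mul, map_pow, map_one, Complex.conj_conj]
  linear_combination he'

theorem normSq_three (a e : ℂ) (he : ‖e‖ = 1) (u : ℕ → ℂ) (h0 : u 0 = 1) (h1 : u 1 = a)
    (hu : ∀ k, u (k + 2) = a * u (k + 1) - e * u k) :
    ‖u 3‖ ^ 2 = ‖a‖ ^ 2 * ((‖a‖ ^ 2) ^ 2 - 4 * (a ^ 2 * conj e).re + 4) := by
  have he' : e * conj e = 1 := Rec_mul_conj he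
  apply Complex.ofReal_injective
  push_cast
  have hre := Rec_re (a ^ 2 * conj e)
  push_cast at hre
  have hre' : (4 : ℂ) * ((a ^ 2 * conj e).re : ℂ) = 2 * (a ^ 2 * conj e + conj (a ^ 2 * conj e)) := by
    rw [← hre]; ring
  simp only [← Complex.ofReal_pow, Rec_sq]
  rw [hre']
  have h2 := hu 0
  have h3 := hu 1
  rw [show 0 + 2 = 2 by ring, show 0 + 1 = 1 by ring, h0, h1] at h2
  rw [show 1 + 2 = 3 by ring, show 1 + 1 = 2 by ring, h1, h2] at h3
  rw [h3]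
  simp only [map_sub, map_mul, map_pow, map_one, Complex.conj_conj]
  linear_combination (4 * a * conj a) * he'

/-- `2 Re (a² ē) ≤ 2 |a|²`. -/
theorem re_le (a e : ℂ) (he : ‖e‖ = 1) : 2 * (a ^ 2 * conj e).re ≤ 2 * ‖a‖ ^ 2 := by
  have h1 : (a ^ 2 * conj e).re ≤ ‖a ^ 2 * conj e‖ := Complex.re_le_norm _
  rw [norm_mul, norm_pow, Complex.norm_conj, he, mul_one] at h1
  linarith

end Fermat.Agent.S48.MS
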